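import Mathlib

/-!
# Abelian binomials

An automorphism of a splitting field of `X ^ n - a` is a pair of exponents, `ζ ↦ ζ ^ k` and
`α ↦ ζ ^ j α`, and two of them commute when `(k' - 1) j ≡ (k - 1) j' (mod n)`.
-/

set_option autoImplicit false

noncomputable section

open Polynomial

namespace FA.AbelianBinomial

variable {K L : Type*} [Field K] [Field L] [Algebra K L] {n : ℕ} {a : K}
  [IsSplittingField K L (X ^ n - C a)]

theorem exists_generators (hn : (n : K) ≠ 0) (ha : a ≠ 0) :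
    ∃ α ζ : L, α ≠ 0 ∧ α ^ n = algebraMap K L a ∧ IsPrimitiveRoot ζ n ∧
      ∀ σ τ : L ≃ₐ[K] L, σ α = τ α → σ ζ = τ ζ → σ = τ := by
  classical
  set P := X ^ n - C a with hP
  have hn0 : 0 < n := Nat.pos_of_ne_zero (by rintro rfl; simp at hn)
  have : NeZero n := ⟨hn0.ne'⟩
  have hP0 : P ≠ 0 := (monic_X_pow_sub_C a hn0.ne').ne_zero
  have hmem : ∀ x : L, x ∈ P.rootSet L ↔ x ^ n = algebraMap K L a := fun x => by
    rw [mem_rootSet_of_ne hP0]
    simp [hP, sub_eq_zero]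
  have hcard : Fintype.card (P.rootSet L) = n :=
    (card_rootSet_eq_natDegree (separable_X_pow_sub_C a hn ha)
      (IsSplittingField.splits L P)).trans natDegree_X_pow_sub_C
  obtain ⟨α, hα'⟩ : ∃ x, x ∈ P.rootSet L := by
    obtain ⟨⟨x, hx⟩⟩ := Fintype.card_pos_iff.1 (hcard ▸ hn0 : 0 < Fintype.card (P.rootSet L))
    exact ⟨x, hx⟩
  have hα : α ^ n = algebraMap K L a := (hmem α).1 hα'
  have hα0 : α ≠ 0 := fun h => ha ((map_eq_zero (algebraMap K L)).1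
    (by rw [← hα, h, zero_pow hn0.ne']))
  let φ : P.rootSet L → rootsOfUnity n L := fun x => rootsOfUnity.mkOfPowEq (x.1 / α) (by
    rw [div_pow, (hmem x.1).1 x.2, hα, div_self ((_root_.map_ne_zero (algebraMap K L)).2 ha)])
  have hφ : Function.Injective φ := fun x y h => Subtype.ext (by
    have h := congrArg (fun u : rootsOfUnity n L => ((u : Lˣ) : L)) h
    simpa [φ, div_left_inj' hα0] using h)
  have hroots : Nat.card (rootsOfUnity n L) = n := by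
    refine le_antisymm (card_rootsOfUnity ..) ?_
    refine le_trans ?_ (Nat.card_le_card_of_injective φ hφ)
    rw [Nat.card_eq_fintype_card]
    exact hcard.ge
  obtain ⟨g, hg⟩ := IsCyclic.exists_ofOrder_eq_natCard (α := rootsOfUnity n L)
  have hζ : IsPrimitiveRoot ((g : Lˣ) : L) n := by
    have h := IsPrimitiveRoot.orderOf g
    rw [hg, hroots] at h
    exact IsPrimitiveRoot.coe_units_iff.2 (IsPrimitiveRoot.coe_submonoidClass_iff.2 h)
  refine ⟨α, (g : Lˣ), hα0, hα, hζ, fun σ τ h1 h2 => ?_⟩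
  have hst : (σ : L →ₐ[K] L) = (τ : L →ₐ[K] L) := by
    refine AlgHom.ext_of_adjoin_eq_top (IsSplittingField.adjoin_rootSet L P) fun x hx => ?_
    obtain ⟨i, -, hi⟩ := hζ.eq_pow_of_pow_eq_one (ξ := x / α) (by
      rw [div_pow, (hmem x).1 hx, hα, div_self ((_root_.map_ne_zero (algebraMap K L)).2 ha)])
    rw [← div_mul_cancel₀ x hα0, ← hi]
    simp [h1, h2]
  exact AlgEquiv.coe_toAlgHom_injective hst

omit [IsSplittingField K L (X ^ n - C a)] in
/-- The exponents of an automorphism. -/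
theorem exists_exponents {α ζ : L} (hn0 : n ≠ 0) (hα0 : α ≠ 0)
    (hα : α ^ n = algebraMap K L a) (hζ : IsPrimitiveRoot ζ n) (σ : L ≃ₐ[K] L) :
    ∃ k j : ℤ, σ ζ = ζ ^ k ∧ σ α = ζ ^ j * α := by
  have : NeZero n := ⟨hn0⟩
  obtain ⟨k, -, hk⟩ := hζ.eq_pow_of_pow_eq_one (ξ := σ ζ)
    (by rw [← map_pow, hζ.pow_eq_one, map_one])
  obtain ⟨j, -, hj⟩ := hζ.eq_pow_of_pow_eq_one (ξ := σ α / α) (by
    rw [div_pow, ← map_pow, hα, AlgEquiv.commutes, div_self]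
    rw [← hα]
    exact pow_ne_zero _ hα0)
  exact ⟨k, j, by rw [zpow_natCast, hk], by rw [zpow_natCast, hj, div_mul_cancel₀ _ hα0]⟩

theorem zpow_eq_zpow_iff {ζ : L} (hn0 : n ≠ 0) (hζ : IsPrimitiveRoot ζ n) {u v : ℤ} :
    ζ ^ u = ζ ^ v ↔ (n : ℤ) ∣ u - v := by
  rw [← hζ.zpow_eq_one_iff_dvd, zpow_sub₀ (hζ.ne_zero hn0),
    div_eq_one_iff_eq (zpow_ne_zero _ (hζ.ne_zero hn0))]

/-- The roots of unity of `K` in a splitting field. -/
theorem fixed_pow {ζ : L} (hn0 : n ≠ 0) (hζ : IsPrimitiveRoot ζ n) :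
    Nat.card (rootsOfUnity n K) ∣ n ∧
      ζ ^ (n / Nat.card (rootsOfUnity n K)) ∈ (algebraMap K L).range := by
  classical
  have : NeZero n := ⟨hn0⟩
  obtain ⟨g, hg⟩ := IsCyclic.exists_ofOrder_eq_natCard (α := rootsOfUnity n K)
  set w := Nat.card (rootsOfUnity n K)
  have hdvd : w ∣ n := by
    rw [← hg]
    exact orderOf_dvd_of_pow_eq_one (Subtype.ext (by
      rw [SubmonoidClass.coe_pow]; exact (mem_rootsOfUnity n _).1 g.2))
  have hw : IsPrimitiveRoot (algebraMap K L ((g : Kˣ) : K)) w := by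
    refine (IsPrimitiveRoot.coe_units_iff.2 (IsPrimitiveRoot.coe_submonoidClass_iff.2
      (hg ▸ IsPrimitiveRoot.orderOf g))).map_of_injective (algebraMap K L).injective
  have hw0 : NeZero w := ⟨fun h => hn0 (by simpa [h] using hdvd)⟩
  have hη : IsPrimitiveRoot (ζ ^ (n / w)) w :=
    hζ.pow (Nat.pos_of_ne_zero hn0) (Nat.div_mul_cancel hdvd).symm
  obtain ⟨i, -, hi⟩ := hw.eq_pow_of_pow_eq_one hη.pow_eq_one
  exact ⟨hdvd, ((g : Kˣ) : K) ^ i, by rw [map_pow, hi]⟩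

theorem commute_of_pow (hn : (n : K) ≠ 0) (ha : a ≠ 0) {c : K}
    (hc : a ^ Nat.card (rootsOfUnity n K) = c ^ n) (σ τ : L ≃ₐ[K] L) : σ * τ = τ * σ := by
  obtain ⟨α, ζ, hα0, hα, hζ, hext⟩ := exists_generators (L := L) hn ha
  have hn0 : n ≠ 0 := by rintro rfl; simp at hn
  have : NeZero n := ⟨hn0⟩
  obtain ⟨hdvd, x, hx⟩ := fixed_pow (K := K) hn0 hζ
  set w := Nat.card (rootsOfUnity n K)
  have hw0 : w ≠ 0 := fun h => hn0 (by simpa [h] using hdvd)
  have hc0 : c ≠ 0 := fun h => by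
    rw [h, zero_pow hn0] at hc
    exact ha (pow_eq_zero_iff hw0 |>.1 hc)
  obtain ⟨i, -, hi⟩ := hζ.eq_pow_of_pow_eq_one (ξ := α ^ w / algebraMap K L c) (by
    rw [div_pow, pow_right_comm, hα, ← map_pow, hc, map_pow, div_self]
    exact pow_ne_zero _ ((_root_.map_ne_zero _).2 hc0))
  have key : ∀ ρ : L ≃ₐ[K] L, ∀ k j : ℤ, ρ ζ = ζ ^ k → ρ α = ζ ^ j * α →
      ∃ e : ℤ, k - 1 = w * e ∧ (n : ℤ) ∣ j * w - i * w * e := by
    intro ρ k j hk hj
    have hfix : ρ (ζ ^ (n / w)) = ζ ^ (n / w) := by rw [← hx, AlgEquiv.commutes]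
    rw [map_pow, hk, ← zpow_natCast ζ (n / w), ← zpow_natCast (ζ ^ k), ← zpow_mul,
      zpow_eq_zpow_iff hn0 hζ, ← sub_one_mul] at hfix
    have hn' : (n : ℤ) = (w : ℤ) * ((n / w : ℕ) : ℤ) := by
      exact_mod_cast (Nat.mul_div_cancel' hdvd).symm
    have hq0 : ((n / w : ℕ) : ℤ) ≠ 0 := fun h =>
      hn0 (by rw [h, mul_zero] at hn'; exact_mod_cast hn')
    rw [hn'] at hfix
    obtain ⟨e, he⟩ := (mul_dvd_mul_iff_right hq0).1 hfix
    refine ⟨e, he, ?_⟩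
    have h : ρ (α ^ w) = ρ (ζ ^ i * algebraMap K L c) := by
      rw [hi, div_mul_cancel₀ _ ((_root_.map_ne_zero _).2 hc0)]
    rw [map_pow, map_mul, map_pow, AlgEquiv.commutes, hj, hk, mul_pow,
      ← div_mul_cancel₀ (α ^ w) ((_root_.map_ne_zero (algebraMap K L)).2 hc0), ← hi,
      ← mul_assoc] at h
    have h' := mul_right_cancel₀ ((_root_.map_ne_zero (algebraMap K L)).2 hc0) h
    rw [← zpow_natCast (ζ ^ j), ← zpow_natCast ζ i, ← zpow_natCast (ζ ^ k), ← zpow_mul,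
      ← zpow_mul, ← zpow_add₀ (hζ.ne_zero hn0), zpow_eq_zpow_iff hn0 hζ] at h'
    refine dvd_trans h' (dvd_of_eq ?_)
    linear_combination -(i : ℤ) * he
  obtain ⟨k, j, hk, hj⟩ := exists_exponents hn0 hα0 hα hζ σ
  obtain ⟨k', j', hk', hj'⟩ := exists_exponents hn0 hα0 hα hζ τ
  obtain ⟨e, he, hje⟩ := key σ k j hk hj
  obtain ⟨e', he', hje'⟩ := key τ k' j' hk' hj'
  refine hext _ _ ?_ ?_
  · simp only [AlgEquiv.mul_apply, hj, hj', map_mul, map_zpow₀, hk, hk', ← mul_assoc, ← zpow_mul,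
      ← zpow_add₀ (hζ.ne_zero hn0)]
    congr 1
    rw [zpow_eq_zpow_iff hn0 hζ]
    refine dvd_trans (dvd_sub (hje'.mul_right e) (hje.mul_right e')) (dvd_of_eq ?_)
    linear_combination -j' * he + j * he'
  · simp only [AlgEquiv.mul_apply, hk, hk', map_zpow₀, ← zpow_mul, mul_comm k k']

theorem pow_of_commute (hn : (n : K) ≠ 0) (ha : a ≠ 0)
    (hcomm : ∀ σ τ : L ≃ₐ[K] L, σ * τ = τ * σ) :
    ∃ c : K, a ^ Nat.card (rootsOfUnity n K) = c ^ n := by
  classical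
  obtain ⟨α, ζ, hα0, hα, hζ, -⟩ := exists_generators (L := L) hn ha
  have hn0 : n ≠ 0 := by rintro rfl; simp at hn
  have : NeZero n := ⟨hn0⟩
  have : FiniteDimensional K L := IsSplittingField.finiteDimensional L (X ^ n - C a)
  have : IsGalois K L := IsGalois.of_separable_splitting_field (separable_X_pow_sub_C a hn ha)
  let S : AddSubgroup ℤ :=
    { carrier := {m | ∃ c : K, c ≠ 0 ∧ a ^ m = c ^ n}
      zero_mem' := ⟨1, one_ne_zero, by simp⟩
      add_mem' := by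
        rintro u v ⟨c, hc, hu⟩ ⟨d, hd, hv⟩
        exact ⟨c * d, mul_ne_zero hc hd, by rw [zpow_add₀ ha, hu, hv, mul_pow]⟩
      neg_mem' := by
        rintro u ⟨c, hc, hu⟩
        exact ⟨c⁻¹, inv_ne_zero hc, by rw [zpow_neg, hu, inv_pow]⟩ }
  obtain ⟨g, hg⟩ := Int.subgroup_cyclic S
  rw [← AddSubgroup.zmultiples_eq_closure] at hg
  have hgn : g ∣ (n : ℤ) := by
    have h : (n : ℤ) ∈ S := ⟨a, ha, zpow_natCast a n⟩
    rwa [hg, Int.mem_zmultiples_iff] at h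
  have hgk : ∀ σ : L ≃ₐ[K] L, ∀ k j : ℤ, σ ζ = ζ ^ k → σ α = ζ ^ j * α → g ∣ k - 1 := by
    intro σ k j hk hj
    suffices h : k - 1 ∈ S by rwa [hg, Int.mem_zmultiples_iff] at h
    obtain ⟨c, hc⟩ := (IsGalois.mem_range_algebraMap_iff_fixed (F := K)
      (α ^ (k - 1) * ζ ^ (-j))).2 fun τ => by
      obtain ⟨k', j', hk', hj'⟩ := exists_exponents hn0 hα0 hα hζ τ
      have h := AlgEquiv.congr_fun (hcomm σ τ) α
      simp only [AlgEquiv.mul_apply, hj, hj', map_mul, map_zpow₀, hk, hk', ← mul_assoc,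
        ← zpow_mul, ← zpow_add₀ (hζ.ne_zero hn0)] at h
      have h' := (zpow_eq_zpow_iff hn0 hζ).1 (mul_right_cancel₀ hα0 h)
      rw [map_mul, map_zpow₀, map_zpow₀, hk', hj', mul_zpow, ← zpow_mul, ← zpow_mul,
        mul_comm (ζ ^ (j' * (k - 1))), mul_assoc, ← zpow_add₀ (hζ.ne_zero hn0)]
      congr 1
      rw [zpow_eq_zpow_iff hn0 hζ]
      refine dvd_trans h' (dvd_of_eq ?_)
      ring
    refine ⟨c, fun h0 => ?_, (algebraMap K L).injective ?_⟩
    · rw [h0, map_zero] at hc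
      exact mul_ne_zero (zpow_ne_zero _ hα0) (zpow_ne_zero _ (hζ.ne_zero hn0)) hc.symm
    · rw [map_pow, hc, mul_pow, ← zpow_natCast (α ^ (k - 1)), ← zpow_natCast (ζ ^ (-j)),
        ← zpow_mul, ← zpow_mul, mul_comm (k - 1), zpow_mul α, zpow_natCast α, hα, map_zpow₀,
        mul_comm (-j), zpow_mul ζ, zpow_natCast ζ, hζ.pow_eq_one, one_zpow, mul_one]
  -- the roots of order `g` lie in `K`
  obtain ⟨m, hm⟩ := Int.natAbs_dvd_natAbs.2 hgn
  rw [Int.natAbs_natCast] at hm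
  have hη : IsPrimitiveRoot (ζ ^ m) g.natAbs := hζ.pow (Nat.pos_of_ne_zero hn0) (by rw [hm]; ring)
  obtain ⟨c, hc⟩ := (IsGalois.mem_range_algebraMap_iff_fixed (F := K) (ζ ^ m)).2 fun σ => by
    obtain ⟨k, j, hk, hj⟩ := exists_exponents hn0 hα0 hα hζ σ
    obtain ⟨e, he⟩ := Int.natAbs_dvd.2 (hgk σ k j hk hj)
    rw [map_pow, hk, ← zpow_natCast ζ m, ← zpow_natCast (ζ ^ k), ← zpow_mul,
      zpow_eq_zpow_iff hn0 hζ]
    refine ⟨e, ?_⟩
    rw [hm, Nat.cast_mul]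
    linear_combination (m : ℤ) * he
  have hc' : IsPrimitiveRoot c g.natAbs :=
    IsPrimitiveRoot.of_map_of_injective (hc ▸ hη) (algebraMap K L).injective
  have hgw : g ∣ (Nat.card (rootsOfUnity n K) : ℤ) := by
    rw [← Int.natAbs_dvd, Int.natCast_dvd_natCast]
    have hcn : c ^ n = 1 := (hc'.pow_eq_one_iff_dvd n).2 ⟨m, hm⟩
    have h1 := orderOf_dvd_natCard (rootsOfUnity.mkOfPowEq c hcn)
    rwa [← Subgroup.orderOf_coe, ← orderOf_units, rootsOfUnity.val_mkOfPowEq_coe,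
      ← hc'.eq_orderOf] at h1
  obtain ⟨c, -, hcw⟩ : (Nat.card (rootsOfUnity n K) : ℤ) ∈ S := by
    rw [hg, Int.mem_zmultiples_iff]
    exact hgw
  exact ⟨c, by rwa [zpow_natCast] at hcw⟩

end FA.AbelianBinomial
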